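/-
S55 engine E1, block LIM, leaf LIM-BIDUAL -- part 1: generic algebra.  helper295.  Complete proofs.

* `pairingHom β hβ : A ⟶ Hom_ℤ(B, E)` for an equivariant biadditive pairing `β : A × B → E`
  of `G`-modules; `pairingHom_bijective`, `pairingHom_isIso` for a perfect pairing
  (left nondegenerate + every additive `B → E` is `β a`).
* `exists_eval_of_additive`: for a finite dimensional `𝔽_p`-vector space `M`, a line `T ≃ 𝔽_p`
  and an injective additive `θ : T → E` onto the `p`-torsion of `E`, every additive map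
  `φ : M^* → E` is `f ↦ θ (e (f m))` for a unique `m ∈ M`.
-/
import Fermat.Agent.S55.E1.Lim.Obj

set_option autoImplicit false

open CategoryTheory

namespace Fermat.Agent.S55.E1.H295

open Fermat.Agent.S55.E1.Lim

noncomputable section

attribute [local instance 10000] Rep.hV2

section Pairing

variable {G : Type} [Group G] {A B E : Rep.{0} ℤ G}

/-- The morphism `A ⟶ Hom_ℤ(B, E)`, `a ↦ β a`, attached to an equivariant biadditive pairing. -/
def pairingHom (β : A.V →+ B.V →+ E.V)
    (hβ : ∀ (g : G) (a : A.V) (b : B.V), β (A.ρ g a) (B.ρ g b) = E.ρ g (β a b)) :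
    A ⟶ (Rep.ihom B).obj E :=
  homOfAdd (B := (Rep.ihom B).obj E)
    { toFun := fun a => (linOfAdd (β a) : B.V →ₗ[ℤ] E.V)
      map_zero' := by
        apply LinearMap.ext
        intro b
        show β 0 b = 0
        rw [map_zero]
        rfl
      map_add' := fun a a' => by
        apply LinearMap.ext
        intro b
        show β (a + a') b = β a b + β a' b
        rw [map_add]
        rfl }
    (fun g a => by
      apply LinearMap.ext
      intro b
      show β (A.ρ g a) b = E.ρ g (β a (B.ρ g⁻¹ b))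
      rw [← hβ, B.ρ.self_inv_apply])

lemma pairingHom_apply (β : A.V →+ B.V →+ E.V)
    (hβ : ∀ (g : G) (a : A.V) (b : B.V), β (A.ρ g a) (B.ρ g b) = E.ρ g (β a b))
    (a : A.V) (b : B.V) :
    (show B.V →ₗ[ℤ] E.V from (pairingHom β hβ).hom a) b = β a b := rfl

theorem pairingHom_bijective (β : A.V →+ B.V →+ E.V)
    (hβ : ∀ (g : G) (a : A.V) (b : B.V), β (A.ρ g a) (B.ρ g b) = E.ρ g (β a b))
    (hinj : ∀ a : A.V, (∀ b : B.V, β a b = 0) → a = 0)
    (hsurj : ∀ φ : B.V →+ E.V, ∃ a : A.V, ∀ b : B.V, β a b = φ b) :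
    Function.Bijective (pairingHom β hβ).hom := by
  constructor
  · rw [injective_iff_map_eq_zero]
    intro a ha
    apply hinj
    intro b
    have := congrArg (fun t : B.V →ₗ[ℤ] E.V => t b) ha
    exact this
  · intro (φ : B.V →ₗ[ℤ] E.V)
    obtain ⟨a, ha⟩ := hsurj φ.toAddMonoidHom
    refine ⟨a, ?_⟩
    apply LinearMap.ext
    intro b
    exact ha b

theorem pairingHom_isIso (β : A.V →+ B.V →+ E.V)
    (hβ : ∀ (g : G) (a : A.V) (b : B.V), β (A.ρ g a) (B.ρ g b) = E.ρ g (β a b))
    (hinj : ∀ a : A.V, (∀ b : B.V, β a b = 0) → a = 0)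
    (hsurj : ∀ φ : B.V →+ E.V, ∃ a : A.V, ∀ b : B.V, β a b = φ b) :
    IsIso (pairingHom β hβ) := by
  have hb := pairingHom_bijective β hβ hinj hsurj
  haveI : Mono (pairingHom β hβ) := (Rep.mono_iff_injective _).2 hb.1
  haveI : Epi (pairingHom β hβ) := (Rep.epi_iff_surjective _).2 hb.2
  exact isIso_of_mono_of_epi _

end Pairing

section Eval

variable {p : ℕ} [Fact p.Prime]

/-- Every additive map from the dual of a finite dimensional `𝔽_p`-vector space `M` to an
abelian group `E` whose `p`-torsion is a line `θ(T)` is `f ↦ θ (e (f m))` for some `m ∈ M`. -/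
theorem exists_eval_of_additive {M T E : Type} [AddCommGroup M] [Module (ZMod p) M]
    [Module.Finite (ZMod p) M] [AddCommGroup T] [Module (ZMod p) T] (e : ZMod p ≃ₗ[ZMod p] T)
    [AddCommGroup E] (θ : T →+ E) (hθ : Function.Injective θ)
    (hθp : ∀ x : E, p • x = 0 → ∃ t : T, θ t = x)
    (φ : Module.Dual (ZMod p) M →+ E) :
    ∃ m : M, ∀ f : Module.Dual (ZMod p) M, θ (e (f m)) = φ f := by
  have hp : ∀ f : Module.Dual (ZMod p) M, p • φ f = 0 := by
    intro f
    rw [← map_nsmul]
    have h0 : p • f = 0 := by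
      rw [← Nat.cast_smul_eq_nsmul (ZMod p), ZMod.natCast_self, zero_smul]
    rw [h0, map_zero]
  choose ψ₀ hψ₀ using fun f => hθp (φ f) (hp f)
  have hadd : ∀ f f' : Module.Dual (ZMod p) M, ψ₀ (f + f') = ψ₀ f + ψ₀ f' := by
    intro f f'
    apply hθ
    rw [map_add, hψ₀, hψ₀, hψ₀, map_add]
  let ψ : Module.Dual (ZMod p) M →+ T := AddMonoidHom.mk' ψ₀ hadd
  let χ : Module.Dual (ZMod p) (Module.Dual (ZMod p) M) :=
    e.symm.toLinearMap ∘ₗ (ψ.toZModLinearMap p)
  refine ⟨(Module.evalEquiv (ZMod p) M).symm χ, fun f => ?_⟩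
  rw [Module.apply_evalEquiv_symm_apply]
  change θ (e (e.symm (ψ₀ f))) = φ f
  rw [LinearEquiv.apply_symm_apply, hψ₀]

/-- Left nondegeneracy of `(m, f) ↦ θ (e (f m))`. -/
theorem eq_zero_of_eval_eq_zero {M T E : Type} [AddCommGroup M] [Module (ZMod p) M]
    [Module.Finite (ZMod p) M] [AddCommGroup T] [Module (ZMod p) T] (e : ZMod p ≃ₗ[ZMod p] T)
    [AddCommGroup E] (θ : T →+ E) (hθ : Function.Injective θ) (m : M)
    (h : ∀ f : Module.Dual (ZMod p) M, θ (e (f m)) = 0) : m = 0 := by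
  rw [← Module.forall_dual_apply_eq_zero_iff (ZMod p) m]
  intro f
  have h1 := h f
  rw [← map_zero θ] at h1
  have h2 := hθ h1
  rwa [LinearEquiv.map_eq_zero_iff] at h2

end Eval

end

end Fermat.Agent.S55.E1.H295
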