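/-
S55 engine E1, block LIM, leaf LIM-BIDUAL -- part 2: the tower (global form).  helper295.
Complete proofs.  Vocabulary: `E1/Lim/Obj.lean` (helper474): `zRep`, `lev`, `levν`, `sUnits`, `trS`;
`Bridge/MuP.lean`: `MuP`, `muPRep`, `evalMuP`; `E1/Tr/Defs.lean`: `trIhom`.

For a level `L` with `μ_p ⊂ L.F` (`L.HasMu p`) and `M : Rep 𝔽_p G_ℚ` finite dimensional with
`L.U` acting trivially, `N := M.dualTwist (cycloChar p)`:
* `muToUnits L hL : μ_p →+ Fˣ`, `muToSUnits L hL : μ_p →+ E(F)` (injective, onto the `p`-torsion,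
  Galois equivariant);
* `bidualHom  : lev (zRep M) L hM ⟶ Hom_ℤ(lev (zRep N) L hN, E(F))`, `m ↦ (f ↦ ⟨m, f⟩)`,
  `bidualHom_isIso`, `bidualIso`;
* `bidualHomU : lev (zRep M) L hM ⟶ Hom_ℤ(lev (zRep N) L hN, Fˣ)`, same with all units;
* naturality in `L`: `bidualHom_tr`, `bidualHomU_tr`.
-/
import Fermat.Agent.S55.E1.H295.BidualCore
import Fermat.Agent.S55.E1.Tr.Defs
import Fermat.Agent.S55.Bridge.MuP

set_option autoImplicit false

open CategoryTheory

namespace Fermat.Agent.S55.E1.H295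

open Fermat.Agent.S55.Tow Fermat.Agent.S55.E1.Lim ExtCitation
open Fermat.Agent.S55.Bridge (MuP muPRep muPLinearEquiv evalMuP)

noncomputable section

attribute [local instance 10000] Rep.hV2

variable {S : Finset Nat.Primes} {p : ℕ} [Fact p.Prime]

/-! ## `μ_p → Fˣ` -/

/-- `p`-th roots of unity lie in `F` if `μ_p ⊂ F`. -/
lemma root_mem_of_hasMu (L : Level S) (hL : L.HasMu p) (t : rootsOfUnity p Qbar) :
    ((t : Qbarˣ) : Qbar) ∈ L.F := by
  obtain ⟨ζ, hζ, hprim⟩ := hL
  have hp0 : NeZero p := ⟨(Fact.out : p.Prime).ne_zero⟩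
  have h1 : ((t : Qbarˣ) : Qbar) ^ p = 1 := by
    have := (mem_rootsOfUnity p (t : Qbarˣ)).1 t.2
    have h2 := congrArg Units.val this
    simpa using h2
  obtain ⟨i, -, hi⟩ := hprim.eq_pow_of_pow_eq_one h1
  rw [← hi]
  exact pow_mem hζ i

/-- The element of `Fˣ` attached to a `p`-th root of unity. -/
def muToUnitsFun (L : Level S) (hL : L.HasMu p) (t : MuP p) : L.units.V :=
  L.unitsMk (Additive.ofMul ((t.root : Qbarˣ))) (fun g hg => by
    apply Additive.toMul.injective
    apply Units.ext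
    have h1 := root_mem_of_hasMu L hL t.root
    exact (IntermediateField.mem_fixingSubgroup_iff _ g).1 hg _ h1)

/-- `θ : μ_p →+ Fˣ`. -/
def muToUnits (L : Level S) (hL : L.HasMu p) : MuP p →+ L.units.V where
  toFun := muToUnitsFun L hL
  map_zero' := rfl
  map_add' _ _ := rfl

lemma unitsCoe_muToUnits (L : Level S) (hL : L.HasMu p) (t : MuP p) :
    L.unitsCoe (muToUnits L hL t) = Additive.ofMul ((t.root : Qbarˣ)) := rfl

lemma muToUnits_injective (L : Level S) (hL : L.HasMu p) :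
    Function.Injective (muToUnits L hL) := by
  intro t t' h
  have h1 := congrArg L.unitsCoe h
  rw [unitsCoe_muToUnits, unitsCoe_muToUnits] at h1
  apply MuP.root_injective
  apply Subtype.ext
  exact Additive.ofMul.injective h1

/-- The image of `θ` is the `p`-torsion of `Fˣ`. -/
lemma exists_muToUnits_eq (L : Level S) (hL : L.HasMu p) (x : L.units.V) (hx : p • x = 0) :
    ∃ t : MuP p, muToUnits L hL t = x := by
  have h1 : (L.val x) ^ p = 1 := by
    have h2 := congrArg L.val hx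
    exact h2
  have hp0 : NeZero p := ⟨(Fact.out : p.Prime).ne_zero⟩
  refine ⟨MuP.of p ⟨L.val x, (mem_rootsOfUnity p _).2 h1⟩, ?_⟩
  apply L.unitsCoe_injective
  rfl

/-- `θ` is Galois equivariant. -/
lemma muToUnits_equivariant (L : Level S) (hL : L.HasMu p) (σ : GQ) (t : MuP p) :
    L.units.ρ (QuotientGroup.mk σ) (muToUnits L hL t) = muToUnits L hL (muPRep p σ t) := by
  apply L.unitsCoe_injective
  rw [L.units_ρ_coe, unitsCoe_muToUnits, unitsCoe_muToUnits]
  apply Additive.toMul.injective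
  apply Units.ext
  exact (Fermat.Agent.S55.Bridge.muPRep_apply p σ t).symm

/-- Roots of unity are `S`-units. -/
lemma isSUnit_muToUnits (L : Level S) (hL : L.HasMu p) (t : MuP p) :
    L.IsSUnit (muToUnits L hL t) := by
  intro ℓ _ A _
  have hx : (L.val (muToUnits L hL t)) ^ p = 1 := by
    have := (mem_rootsOfUnity p (t.root : Qbarˣ)).1 t.root.2
    exact this
  have hn : p ≠ 0 := (Fact.out : p.Prime).ne_zero
  have h1 : A.valuation ((L.val (muToUnits L hL t) : Qbarˣ) : Qbar) ^ p = 1 := by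
    rw [← map_pow, ← Units.val_pow_eq_pow_val, hx, Units.val_one, map_one]
  have h2 : A.valuation ((L.val (muToUnits L hL t) : Qbarˣ) : Qbar) = 1 :=
    (pow_eq_one_iff_of_nonneg zero_le hn).1 h1
  have h3 : A.valuation (((L.val (muToUnits L hL t))⁻¹ : Qbarˣ) : Qbar) = 1 := by
    rw [Units.val_inv_eq_inv_val, map_inv₀, h2, inv_one]
  exact ⟨(A.valuation_le_one_iff _).1 h2.le, (A.valuation_le_one_iff _).1 h3.le⟩

lemma muToUnits_mem (L : Level S) (hL : L.HasMu p) (t : MuP p) :
    muToUnits L hL t ∈ sUnitsAdd L := by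
  intro g
  induction g using QuotientGroup.induction_on with
  | H σ =>
    rw [muToUnits_equivariant]
    exact isSUnit_muToUnits L hL _

/-- `θ_S : μ_p →+ E(F)` (the `S`-units). -/
def muToSUnits (L : Level S) (hL : L.HasMu p) : MuP p →+ (sUnits L).V where
  toFun t := subMk (muToUnits L hL t) (muToUnits_mem L hL t)
  map_zero' := rfl
  map_add' _ _ := rfl

lemma sIncl_muToSUnits (L : Level S) (hL : L.HasMu p) (t : MuP p) :
    (sIncl L).hom (muToSUnits L hL t) = muToUnits L hL t := rfl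

lemma muToSUnits_injective (L : Level S) (hL : L.HasMu p) :
    Function.Injective (muToSUnits L hL) := by
  intro t t' h
  apply muToUnits_injective L hL
  rw [← sIncl_muToSUnits, ← sIncl_muToSUnits, h]

lemma exists_muToSUnits_eq (L : Level S) (hL : L.HasMu p) (x : (sUnits L).V) (hx : p • x = 0) :
    ∃ t : MuP p, muToSUnits L hL t = x := by
  have h1 : p • (sIncl L).hom x = 0 := by
    rw [← map_nsmul, hx, map_zero]
  obtain ⟨t, ht⟩ := exists_muToUnits_eq L hL _ h1
  refine ⟨t, ?_⟩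
  apply sIncl_injective L
  rw [sIncl_muToSUnits, ht]

lemma muToSUnits_equivariant (L : Level S) (hL : L.HasMu p) (σ : GQ) (t : MuP p) :
    (sUnits L).ρ (QuotientGroup.mk σ) (muToSUnits L hL t) = muToSUnits L hL (muPRep p σ t) := by
  apply sIncl_injective L
  rw [sIncl_muToSUnits, Rep.hom_comm_apply, sIncl_muToSUnits, muToUnits_equivariant]

/-! ## The generic evaluation morphism -/

section EvalHom

variable {Γ : Type} [Group Γ] (A B E : Rep.{0} ℤ Γ) (M : Rep.{0, 0, 0} (ZMod p) GQ)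
  (eA : A.V ≃+ M.V) (eB : B.V ≃+ (M.dualTwist (cycloChar p)).V) (θ : MuP p →+ E.V)

/-- The pairing `A × B → E`, `(a, b) ↦ θ ⟨a, b⟩`, for `A ≃ M`, `B ≃ M^∨(1)`. -/
def evalPairing : A.V →+ B.V →+ E.V :=
  AddMonoidHom.mk' (fun a => (θ.comp (evalMuP M (eA a)).toAddMonoidHom).comp eB.toAddMonoidHom)
    (fun a a' => by
      apply AddMonoidHom.ext
      intro b
      show θ (evalMuP M (eA (a + a')) (eB b)) =
        θ (evalMuP M (eA a) (eB b)) + θ (evalMuP M (eA a') (eB b))
      rw [map_add, map_add, LinearMap.add_apply, map_add])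

lemma evalPairing_apply (a : A.V) (b : B.V) :
    evalPairing A B E M eA eB θ a b = θ (evalMuP M (eA a) (eB b)) := rfl

/-- Compatibility of the three actions with the Galois action: every `γ ∈ Γ` acts on
`A ≃ M`, `B ≃ M^∨(1)` and on `θ(μ_p)` like some `σ ∈ G_ℚ`. -/
def EvalCompat : Prop :=
  ∀ γ : Γ, ∃ σ : GQ, (∀ a : A.V, eA (A.ρ γ a) = M.ρ σ (eA a)) ∧
    (∀ b : B.V, eB (B.ρ γ b) = (M.dualTwist (cycloChar p)).ρ σ (eB b)) ∧
    (∀ t : MuP p, E.ρ γ (θ t) = θ (muPRep p σ t))

variable {A B E M eA eB θ}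

lemma evalPairing_equivariant (hc : EvalCompat A B E M eA eB θ) (γ : Γ) (a : A.V) (b : B.V) :
    evalPairing A B E M eA eB θ (A.ρ γ a) (B.ρ γ b) =
      E.ρ γ (evalPairing A B E M eA eB θ a b) := by
  obtain ⟨σ, h1, h2, h3⟩ := hc γ
  rw [evalPairing_apply, evalPairing_apply, h1, h2, h3,
    Fermat.Agent.S55.Bridge.evalMuP_equivariant]

/-- The morphism `A ⟶ Hom_ℤ(B, E)`, `a ↦ (b ↦ θ ⟨a, b⟩)`. -/
def evalHom (hc : EvalCompat A B E M eA eB θ) : A ⟶ (Rep.ihom B).obj E :=
  pairingHom (evalPairing A B E M eA eB θ) (evalPairing_equivariant hc)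

lemma evalHom_apply (hc : EvalCompat A B E M eA eB θ) (a : A.V) (b : B.V) :
    (show B.V →ₗ[ℤ] E.V from (evalHom hc).hom a) b = θ (evalMuP M (eA a) (eB b)) := rfl

theorem evalHom_bijective [FiniteDimensional (ZMod p) M] (hc : EvalCompat A B E M eA eB θ)
    (hθ : Function.Injective θ) (hθp : ∀ x : E.V, p • x = 0 → ∃ t : MuP p, θ t = x) :
    Function.Bijective (evalHom hc).hom := by
  apply pairingHom_bijective
  · intro a ha
    have h1 : eA a = 0 := by
      apply eq_zero_of_eval_eq_zero (muPLinearEquiv p) θ hθ (eA a)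
      intro f
      have h2 := ha (eB.symm f)
      rw [evalPairing_apply, AddEquiv.apply_symm_apply] at h2
      exact h2
    exact (AddEquiv.map_eq_zero_iff eA).1 h1
  · intro φ
    obtain ⟨m, hm⟩ := exists_eval_of_additive (M := M.V) (muPLinearEquiv p) θ hθ hθp
      (φ.comp eB.symm.toAddMonoidHom)
    refine ⟨eA.symm m, fun b => ?_⟩
    rw [evalPairing_apply, AddEquiv.apply_symm_apply]
    have h1 := hm (eB b)
    rw [AddMonoidHom.comp_apply] at h1
    have h2 : eB.symm.toAddMonoidHom (eB b) = b := AddEquiv.symm_apply_apply eB b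
    rw [h2] at h1
    exact h1

theorem evalHom_isIso [FiniteDimensional (ZMod p) M] (hc : EvalCompat A B E M eA eB θ)
    (hθ : Function.Injective θ) (hθp : ∀ x : E.V, p • x = 0 → ∃ t : MuP p, θ t = x) :
    IsIso (evalHom hc) := by
  have hb := evalHom_bijective hc hθ hθp
  haveI : Mono (evalHom hc) := (Rep.mono_iff_injective _).2 hb.1
  haveI : Epi (evalHom hc) := (Rep.epi_iff_surjective _).2 hb.2
  exact isIso_of_mono_of_epi _

end EvalHom

/-! ## The global isomorphisms -/

section Global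

variable (M : Rep.{0, 0, 0} (ZMod p) GQ)

/-- `L.U` acts trivially on `N = M^∨(1)` if it acts trivially on `M` and `μ_p ⊂ F`. -/
lemma dualTwist_ρ_eq_one (L : Level S) (hL : L.HasMu p) (hM : ∀ s ∈ L.U, M.ρ s = 1) :
    ∀ s ∈ L.U, (M.dualTwist (cycloChar p)).ρ s = 1 := by
  intro s hs
  have hχ : cycloChar p s = 1 := by
    apply Fermat.Agent.S55.Bridge.cycloChar_eq_one_of_fixes
    intro t ht
    exact (IntermediateField.mem_fixingSubgroup_iff _ s).1 hs _
      (root_mem_of_hasMu L hL ⟨t, ht⟩)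
  have hs' : M.ρ s⁻¹ = 1 := hM _ (inv_mem hs)
  apply LinearMap.ext
  intro f
  rw [Rep.dualTwist_ρ_apply, hχ, hs']
  simp only [Units.val_one, one_smul]
  rfl

/-- The hypotheses for `zRep`. -/
lemma zRep_trivial {k G : Type} [CommRing k] [Group G] (A : Rep.{0} k G) (U : Subgroup G)
    (h : ∀ s ∈ U, A.ρ s = 1) : ∀ s ∈ U, (zRep A).ρ s = 1 :=
  fun s hs => zRep_ρ_eq_one (h s hs)

variable (L : Level S) (hL : L.HasMu p) (hM : ∀ s ∈ L.U, (zRep M).ρ s = 1)
  (hN : ∀ s ∈ L.U, (zRep (M.dualTwist (cycloChar p))).ρ s = 1)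

lemma evalCompat_sUnits :
    EvalCompat (lev (zRep M) L hM) (lev (zRep (M.dualTwist (cycloChar p))) L hN) (sUnits L) M
      (AddEquiv.refl _) (AddEquiv.refl _) (muToSUnits L hL) := by
  intro γ
  induction γ using QuotientGroup.induction_on with
  | H σ =>
    exact ⟨σ, fun a => rfl, fun b => rfl, fun t => muToSUnits_equivariant L hL σ t⟩

lemma evalCompat_units :
    EvalCompat (lev (zRep M) L hM) (lev (zRep (M.dualTwist (cycloChar p))) L hN) L.units M
      (AddEquiv.refl _) (AddEquiv.refl _) (muToUnits L hL) := by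
  intro γ
  induction γ using QuotientGroup.induction_on with
  | H σ =>
    exact ⟨σ, fun a => rfl, fun b => rfl, fun t => muToUnits_equivariant L hL σ t⟩

/-- **LIM-BIDUAL** (`S`-units): `M_F ⟶ Hom_ℤ(N_F, E(F))`, `m ↦ (f ↦ ⟨m, f⟩ ∈ μ_p ⊂ E(F))`. -/
def bidualHom :
    lev (zRep M) L hM ⟶
      (Rep.ihom (lev (zRep (M.dualTwist (cycloChar p))) L hN)).obj (sUnits L) :=
  evalHom (evalCompat_sUnits M L hL hM hN)

/-- **LIM-BIDUAL** (all units): `M_F ⟶ Hom_ℤ(N_F, Fˣ)`. -/
def bidualHomU :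
    lev (zRep M) L hM ⟶
      (Rep.ihom (lev (zRep (M.dualTwist (cycloChar p))) L hN)).obj L.units :=
  evalHom (evalCompat_units M L hL hM hN)

lemma bidualHom_apply (m : M.V) (f : (M.dualTwist (cycloChar p)).V) :
    (show (lev (zRep (M.dualTwist (cycloChar p))) L hN).V →ₗ[ℤ] (sUnits L).V from
      (bidualHom M L hL hM hN).hom m) f = muToSUnits L hL (evalMuP M m f) := rfl

lemma bidualHomU_apply (m : M.V) (f : (M.dualTwist (cycloChar p)).V) :
    (show (lev (zRep (M.dualTwist (cycloChar p))) L hN).V →ₗ[ℤ] L.units.V from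
      (bidualHomU M L hL hM hN).hom m) f = muToUnits L hL (evalMuP M m f) := rfl

/-- `bidualHomU = (sIncl)_* ∘ bidualHom`. -/
lemma bidualHom_sIncl :
    bidualHom M L hL hM hN ≫
      (Rep.ihom (lev (zRep (M.dualTwist (cycloChar p))) L hN)).map (sIncl L) =
    bidualHomU M L hL hM hN := by
  apply Rep.hom_ext
  apply DFunLike.ext
  intro m
  rfl

variable [FiniteDimensional (ZMod p) M]

theorem bidualHom_bijective : Function.Bijective (bidualHom M L hL hM hN).hom :=
  evalHom_bijective _ (muToSUnits_injective L hL) (exists_muToSUnits_eq L hL)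

theorem bidualHomU_bijective : Function.Bijective (bidualHomU M L hL hM hN).hom :=
  evalHom_bijective _ (muToUnits_injective L hL) (exists_muToUnits_eq L hL)

instance bidualHom_isIso : IsIso (bidualHom M L hL hM hN) :=
  evalHom_isIso _ (muToSUnits_injective L hL) (exists_muToSUnits_eq L hL)

instance bidualHomU_isIso : IsIso (bidualHomU M L hL hM hN) :=
  evalHom_isIso _ (muToUnits_injective L hL) (exists_muToUnits_eq L hL)

/-- **LIM-BIDUAL**: `M_F ≅ Hom_ℤ(N_F, E(F))` in `Rep ℤ Gal(F/ℚ)`. -/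
def bidualIso :
    lev (zRep M) L hM ≅
      (Rep.ihom (lev (zRep (M.dualTwist (cycloChar p))) L hN)).obj (sUnits L) :=
  asIso (bidualHom M L hL hM hN)

/-- **LIM-BIDUAL**: `M_F ≅ Hom_ℤ(N_F, Fˣ)` in `Rep ℤ Gal(F/ℚ)`. -/
def bidualIsoU :
    lev (zRep M) L hM ≅
      (Rep.ihom (lev (zRep (M.dualTwist (cycloChar p))) L hN)).obj L.units :=
  asIso (bidualHomU M L hL hM hN)

end Global

/-! ## Naturality in the level -/

section Naturality

variable (M : Rep.{0, 0, 0} (ZMod p) GQ) {L L' : Level S} (h : L ≤ L') (hL : L.HasMu p)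
  (hM : ∀ s ∈ L.U, (zRep M).ρ s = 1)
  (hN : ∀ s ∈ L.U, (zRep (M.dualTwist (cycloChar p))).ρ s = 1)

lemma trUnits_muToUnits (t : MuP p) :
    (Level.trUnits h).hom (muToUnits L hL t) = muToUnits L' (hL.mono h) t := rfl

lemma trS_muToSUnits (t : MuP p) :
    (trS h).hom (muToSUnits L hL t) = muToSUnits L' (hL.mono h) t := rfl

/-- Naturality of `bidualHom` in the level (`S`-units). -/
theorem bidualHom_tr :
    (Rep.resFunctor (Level.proj h)).map (bidualHom M L hL hM hN) ≫
        trIhom (Level.proj h) (levν (zRep (M.dualTwist (cycloChar p))) h hN) (trS h) =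
      Fermat.Agent.S55.Bridge.levelHom (zRep M) h hM ≫
        bidualHom M L' (hL.mono h) (triv_of_le _ h hM) (triv_of_le _ h hN) := by
  apply Rep.hom_ext
  apply DFunLike.ext
  intro m
  rfl

/-- Naturality of `bidualHomU` in the level (all units). -/
theorem bidualHomU_tr :
    (Rep.resFunctor (Level.proj h)).map (bidualHomU M L hL hM hN) ≫
        trIhom (Level.proj h) (levν (zRep (M.dualTwist (cycloChar p))) h hN)
          (Level.trUnits h) =
      Fermat.Agent.S55.Bridge.levelHom (zRep M) h hM ≫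
        bidualHomU M L' (hL.mono h) (triv_of_le _ h hM) (triv_of_le _ h hN) := by
  apply Rep.hom_ext
  apply DFunLike.ext
  intro m
  rfl

end Naturality

end

end Fermat.Agent.S55.E1.H295
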