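/-
S55 engine E1, block LIM, leaf LIM-BIDUAL -- part 3: the local form.  helper295.  Complete proofs.

For a level `L` with `μ_p ⊂ L.F`, a prime `q`, `D_q = L.Dec q ↪ Gal(F/ℚ)` (`L.decHom q`):
* `muToLoc L q hL : μ_p →+ F_qˣ` (`= emb ∘ muToUnits`; injective, onto the `p`-torsion of `F_qˣ`,
  equivariant for the local Galois group);
* `bidualHomLoc : Res_{D_q} M_F ⟶ Hom_ℤ(Res_{D_q} N_F, F_qˣ)`, an isomorphism (`bidualIsoLoc`);
* compatibility with the global form: `bidualHomU_emb`;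
* naturality in the level (elementwise): `bidualHomLoc_tr`.
-/
import Fermat.Agent.S55.E1.H295.Bidual

set_option autoImplicit false

open CategoryTheory

namespace Fermat.Agent.S55.E1.H295

open Fermat.Agent.S55.Tow Fermat.Agent.S55.E1.Lim ExtCitation
open Fermat.Agent.S55.Bridge (MuP muPRep muPLinearEquiv evalMuP)

noncomputable section

attribute [local instance 10000] Rep.hV2

variable {S : Finset Nat.Primes} {p : ℕ} [Fact p.Prime]

/-! ## `μ_p → F_qˣ` -/

/-- `θ_q : μ_p →+ F_qˣ`, the composite of `μ_p → Fˣ` and the embedding `Fˣ → F_qˣ`. -/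
def muToLoc (L : Level S) (q : Nat.Primes) (hL : L.HasMu p) : MuP p →+ (L.locUnits q).V :=
  (L.embFun q).toAddMonoidHom.comp (muToUnits L hL)

lemma muToLoc_apply (L : Level S) (q : Nat.Primes) (hL : L.HasMu p) (t : MuP p) :
    muToLoc L q hL t = L.embFun q (muToUnits L hL t) := rfl

lemma embQbar_injective (q : Nat.Primes) : Function.Injective (embQbar q) := by
  intro x y h
  apply Additive.toMul.injective
  apply Units.ext
  have h1 : ((Additive.toMul (embQbar q x) : (PadicAlgCl (q : ℕ))ˣ) : PadicAlgCl (q : ℕ)) =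
      ((Additive.toMul (embQbar q y) : (PadicAlgCl (q : ℕ))ˣ) : PadicAlgCl (q : ℕ)) := by
    rw [h]
  exact (padicEmbedding (q : ℕ)).toRingHom.injective h1

lemma embFun_injective (L : Level S) (q : Nat.Primes) : Function.Injective (L.embFun q) := by
  intro x y h
  apply L.unitsCoe_injective
  apply embQbar_injective q
  rw [← L.locCoe_embFun, ← L.locCoe_embFun, h]

lemma muToLoc_injective (L : Level S) (q : Nat.Primes) (hL : L.HasMu p) :
    Function.Injective (muToLoc L q hL) :=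
  (embFun_injective L q).comp (muToUnits_injective L hL)

lemma embQbar_val (q : Nat.Primes) (a : unitsQbar.V) :
    ((Additive.toMul (embQbar q a) : (PadicAlgCl (q : ℕ))ˣ) : PadicAlgCl (q : ℕ)) =
      padicEmbedding (q : ℕ) ((Additive.toMul a : Qbarˣ) : Qbar) := rfl

/-- The image of `θ_q` is the `p`-torsion of `F_qˣ`. -/
lemma exists_muToLoc_eq (L : Level S) (q : Nat.Primes) (hL : L.HasMu p) (x : (L.locUnits q).V)
    (hx : p • x = 0) : ∃ t : MuP p, muToLoc L q hL t = x := by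
  obtain ⟨ζ, hζ, hprim⟩ := id hL
  have hp0 : NeZero p := ⟨(Fact.out : p.Prime).ne_zero⟩
  have hprim' : IsPrimitiveRoot (padicEmbedding (q : ℕ) ζ) p :=
    hprim.map_of_injective (padicEmbedding (q : ℕ)).toRingHom.injective
  have h1 : (L.locVal q x) ^ p = 1 := congrArg (L.locVal q) hx
  have h2 : ((L.locVal q x : (PadicAlgCl (q : ℕ))ˣ) : PadicAlgCl (q : ℕ)) ^ p = 1 := by
    rw [← Units.val_pow_eq_pow_val, h1, Units.val_one]
  obtain ⟨i, -, hi⟩ := hprim'.eq_pow_of_pow_eq_one h2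
  let u : Qbarˣ := (hprim.isUnit hp0.ne).unit
  have hu : (u : Qbar) = ζ := rfl
  have hup : u ^ p = 1 := by
    apply Units.ext
    rw [Units.val_pow_eq_pow_val, hu, hprim.pow_eq_one, Units.val_one]
  have hmem : u ^ i ∈ rootsOfUnity p Qbar := by
    rw [mem_rootsOfUnity, ← pow_mul, mul_comm, pow_mul, hup, one_pow]
  refine ⟨MuP.of p ⟨u ^ i, hmem⟩, ?_⟩
  apply L.locCoe_injective q
  rw [muToLoc_apply, L.locCoe_embFun, unitsCoe_muToUnits]
  apply Additive.toMul.injective
  apply Units.ext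
  change padicEmbedding (q : ℕ) ((u ^ i : Qbarˣ) : Qbar) =
    ((L.locVal q x : (PadicAlgCl (q : ℕ))ˣ) : PadicAlgCl (q : ℕ))
  rw [Units.val_pow_eq_pow_val, hu, map_pow, hi]

/-- `θ_q` is equivariant for the local Galois group. -/
lemma muToLoc_equivariant (L : Level S) (q : Nat.Primes) (hL : L.HasMu p) (τ : GQp q)
    (t : MuP p) :
    (L.locUnits q).ρ (QuotientGroup.mk τ) (muToLoc L q hL t) =
      muToLoc L q hL (muPRep p (locQ q τ) t) := by
  rw [muToLoc_apply, muToLoc_apply, ← muToUnits_equivariant]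
  exact (Rep.hom_comm_apply (L.emb q) (QuotientGroup.mk τ) (muToUnits L hL t)).symm

/-! ## The local isomorphism -/

section Local

variable (M : Rep.{0, 0, 0} (ZMod p) GQ) (L : Level S) (q : Nat.Primes) (hL : L.HasMu p)
  (hM : ∀ s ∈ L.U, (zRep M).ρ s = 1)
  (hN : ∀ s ∈ L.U, (zRep (M.dualTwist (cycloChar p))).ρ s = 1)

lemma evalCompat_loc :
    EvalCompat (Rep.res (L.decHom q) (lev (zRep M) L hM))
      (Rep.res (L.decHom q) (lev (zRep (M.dualTwist (cycloChar p))) L hN)) (L.locUnits q) M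
      (AddEquiv.refl _) (AddEquiv.refl _) (muToLoc L q hL) := by
  intro γ
  induction γ using QuotientGroup.induction_on with
  | H τ =>
    exact ⟨locQ q τ, fun a => rfl, fun b => rfl, fun t => muToLoc_equivariant L q hL τ t⟩

/-- **LIM-BIDUAL, local form**: `Res_{D_q} M_F ⟶ Hom_ℤ(Res_{D_q} N_F, F_qˣ)`,
`m ↦ (f ↦ ⟨m, f⟩ ∈ μ_p ⊂ F_qˣ)`. -/
def bidualHomLoc :
    Rep.res (L.decHom q) (lev (zRep M) L hM) ⟶
      (Rep.ihom (Rep.res (L.decHom q) (lev (zRep (M.dualTwist (cycloChar p))) L hN))).obj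
        (L.locUnits q) :=
  evalHom (evalCompat_loc M L q hL hM hN)

lemma bidualHomLoc_apply (m : M.V) (f : (M.dualTwist (cycloChar p)).V) :
    (show (Rep.res (L.decHom q) (lev (zRep (M.dualTwist (cycloChar p))) L hN)).V →ₗ[ℤ]
        (L.locUnits q).V from (bidualHomLoc M L q hL hM hN).hom m) f =
      muToLoc L q hL (evalMuP M m f) := rfl

/-- Compatibility of the local and the global form: `emb_* ∘ Res(bidualHomU) = bidualHomLoc`. -/
theorem bidualHomU_emb :
    (Rep.resFunctor (L.decHom q)).map (bidualHomU M L hL hM hN) ≫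
        trIhom (L.decHom q)
          (𝟙 (Rep.res (L.decHom q) (lev (zRep (M.dualTwist (cycloChar p))) L hN))) (L.emb q) =
      bidualHomLoc M L q hL hM hN := by
  apply Rep.hom_ext
  apply DFunLike.ext
  intro m
  rfl

variable [FiniteDimensional (ZMod p) M]

theorem bidualHomLoc_bijective : Function.Bijective (bidualHomLoc M L q hL hM hN).hom :=
  evalHom_bijective _ (muToLoc_injective L q hL) (exists_muToLoc_eq L q hL)

instance bidualHomLoc_isIso : IsIso (bidualHomLoc M L q hL hM hN) :=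
  evalHom_isIso _ (muToLoc_injective L q hL) (exists_muToLoc_eq L q hL)

/-- **LIM-BIDUAL, local form**: `Res_{D_q} M_F ≅ Hom_ℤ(Res_{D_q} N_F, F_qˣ)`. -/
def bidualIsoLoc :
    Rep.res (L.decHom q) (lev (zRep M) L hM) ≅
      (Rep.ihom (Rep.res (L.decHom q) (lev (zRep (M.dualTwist (cycloChar p))) L hN))).obj
        (L.locUnits q) :=
  asIso (bidualHomLoc M L q hL hM hN)

end Local

/-! ## Naturality of the local form in the level -/

section LocalNaturality

variable (M : Rep.{0, 0, 0} (ZMod p) GQ) {L L' : Level S} (h : L ≤ L') (q : Nat.Primes)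
  (hL : L.HasMu p) (hM : ∀ s ∈ L.U, (zRep M).ρ s = 1)
  (hN : ∀ s ∈ L.U, (zRep (M.dualTwist (cycloChar p))).ρ s = 1)

lemma trLoc_muToLoc (t : MuP p) :
    (Level.trLoc h q).hom (muToLoc L q hL t) = muToLoc L' q (hL.mono h) t := rfl

/-- The identity of `M` as a morphism `Res_{proj}(Res_{D_q} M_F) ⟶ Res_{D'_q} M_{F'}`. -/
def locLevelHom (A : Rep.{0} ℤ GQ) (hA : ∀ s ∈ L.U, A.ρ s = 1) :
    Rep.res (Level.projDec h q) (Rep.res (L.decHom q) (lev A L hA)) ⟶
      Rep.res (L'.decHom q) (lev A L' (triv_of_le A h hA)) :=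
  Rep.ofHom ⟨LinearMap.id, fun g => QuotientGroup.induction_on g fun _ => rfl⟩

/-- The identity of `N` as a morphism `Res_{D'_q} N_{F'} ⟶ Res_{proj}(Res_{D_q} N_F)`. -/
def locLevν (A : Rep.{0} ℤ GQ) (hA : ∀ s ∈ L.U, A.ρ s = 1) :
    Rep.res (L'.decHom q) (lev A L' (triv_of_le A h hA)) ⟶
      Rep.res (Level.projDec h q) (Rep.res (L.decHom q) (lev A L hA)) :=
  Rep.ofHom ⟨LinearMap.id, fun g => QuotientGroup.induction_on g fun _ => rfl⟩

@[simp] lemma locLevelHom_apply (A : Rep.{0} ℤ GQ) (hA : ∀ s ∈ L.U, A.ρ s = 1) (a : A.V) :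
    (locLevelHom h q A hA).hom a = a := rfl

@[simp] lemma locLevν_apply (A : Rep.{0} ℤ GQ) (hA : ∀ s ∈ L.U, A.ρ s = 1) (a : A.V) :
    (locLevν h q A hA).hom a = a := rfl

/-- Naturality of `bidualHomLoc` in the level. -/
theorem bidualHomLoc_tr :
    (Rep.resFunctor (Level.projDec h q)).map (bidualHomLoc M L q hL hM hN) ≫
        trIhom (Level.projDec h q) (locLevν h q (zRep (M.dualTwist (cycloChar p))) hN)
          (Level.trLoc h q) =
      locLevelHom h q (zRep M) hM ≫
        bidualHomLoc M L' q (hL.mono h) (triv_of_le _ h hM) (triv_of_le _ h hN) := by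
  apply Rep.hom_ext
  apply DFunLike.ext
  intro m
  rfl

end LocalNaturality

end

end Fermat.Agent.S55.E1.H295
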