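/-
S55 engine E1, leaf ALG11 (local injectivity) -- part 1: the kernel of `ρ : P' → P`.
helper295.  Pure additive algebra on `α →₀ ℤ[G']`; complete proofs.

`freeBasisLift v : (α →₀ ℤ[G]) →+ M`, `single a (single g m) ↦ m • v a g`;
`free_induction`; `ker_vanish`: an additive map on `M ↪ P'` which kills the
lifts of all `g' e_a - s(π g') e_a` kills every element mapping to `ker ρ`.
-/
import Mathlib

set_option autoImplicit false

namespace Fermat.Agent.S55.E1.H295

section FreeLift

variable {α G M : Type} [AddCommGroup M]

/-- The additive map `α →₀ ℤ[G] → M` with `single a (single g m) ↦ m • v a g`. -/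
noncomputable def freeBasisLift (v : α → G → M) : (α →₀ MonoidAlgebra ℤ G) →+ M :=
  Finsupp.liftAddHom (fun a =>
    (Finsupp.liftAddHom (fun g => zmultiplesHom M (v a g))).comp
      MonoidAlgebra.coeffAddEquiv.toAddMonoidHom)

@[simp]
lemma freeBasisLift_single_single (v : α → G → M) (a : α) (g : G) (m : ℤ) :
    freeBasisLift v (Finsupp.single a (MonoidAlgebra.single g m)) = m • v a g := by
  simp [freeBasisLift]

lemma zsmul_single_single (a : α) (g : G) (m : ℤ) :
    m • (Finsupp.single a (MonoidAlgebra.single g 1) : α →₀ MonoidAlgebra ℤ G) =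
      Finsupp.single a (MonoidAlgebra.single g m) := by
  rw [Finsupp.smul_single, MonoidAlgebra.smul_single, smul_eq_mul, mul_one]

/-- Induction principle for `α →₀ ℤ[G]`. -/
lemma free_induction {motive : (α →₀ MonoidAlgebra ℤ G) → Prop} (x : α →₀ MonoidAlgebra ℤ G)
    (zero : motive 0) (add : ∀ x y, motive x → motive y → motive (x + y))
    (single : ∀ (a : α) (g : G) (m : ℤ), motive (Finsupp.single a (MonoidAlgebra.single g m))) :
    motive x := by
  induction x using Finsupp.induction_linear with
  | zero => exact zero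
  | add x y hx hy => exact add x y hx hy
  | single a b =>
    induction b using MonoidAlgebra.induction_linear with
    | zero => simpa using zero
    | add x y hx hy =>
      rw [Finsupp.single_add]
      exact add _ _ hx hy
    | single g m => exact single a g m

/-- Two additive maps on `α →₀ ℤ[G]` which agree on the `single a (single g m)` are equal. -/
lemma free_addHom_ext {f f' : (α →₀ MonoidAlgebra ℤ G) →+ M}
    (h : ∀ (a : α) (g : G) (m : ℤ), f (Finsupp.single a (MonoidAlgebra.single g m)) =
      f' (Finsupp.single a (MonoidAlgebra.single g m))) (x : α →₀ MonoidAlgebra ℤ G) :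
    f x = f' x := by
  induction x using free_induction with
  | zero => rw [map_zero, map_zero]
  | add x y hx hy => rw [map_add, map_add, hx, hy]
  | single a g m => exact h a g m

end FreeLift

section Ker

variable {α β G G' M Y : Type} [AddCommGroup M] [AddCommGroup Y]

/-- **Kernel lemma.**  `ρ : α →₀ ℤ[G'] → β →₀ ℤ[G]`, `g' e_a ↦ π(g') e_{ν a}` with `ν` injective
and `s` a section of `π`.  `ι : M → α →₀ ℤ[G']` injective with `ker ρ ⊆ range ι`.  If the
additive map `θ : M → Y` kills every `u` with `ι u = g' e_a - s(π g') e_a`, then `θ` kills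
every `r` with `ρ (ι r) = 0`. -/
theorem ker_vanish (π : G' → G) (s : G → G') (ν : α → β) (hν : Function.Injective ν)
    (ρ : (α →₀ MonoidAlgebra ℤ G') →+ (β →₀ MonoidAlgebra ℤ G))
    (hρ : ∀ (a : α) (g' : G') (m : ℤ), ρ (Finsupp.single a (MonoidAlgebra.single g' m)) =
      Finsupp.single (ν a) (MonoidAlgebra.single (π g') m))
    (hs : ∀ g, π (s g) = g)
    (ι : M →+ (α →₀ MonoidAlgebra ℤ G')) (hι : Function.Injective ι)
    (hker : ∀ x, ρ x = 0 → ∃ r, ι r = x)
    (θ : M →+ Y)
    (hθ : ∀ (a : α) (g' : G') (u : M),
      ι u = Finsupp.single a (MonoidAlgebra.single g' 1) -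
        Finsupp.single a (MonoidAlgebra.single (s (π g')) 1) → θ u = 0)
    (r : M) (hr : ρ (ι r) = 0) : θ r = 0 := by
  classical
  -- the additive section `σ` of `ρ` (on the image)
  let σ : (β →₀ MonoidAlgebra ℤ G) →+ (α →₀ MonoidAlgebra ℤ G') :=
    freeBasisLift (fun b g =>
      if h : ∃ a, ν a = b then Finsupp.single h.choose (MonoidAlgebra.single (s g) 1) else 0)
  have hσ : ∀ (a : α) (g : G) (m : ℤ), σ (Finsupp.single (ν a) (MonoidAlgebra.single g m)) =
      Finsupp.single a (MonoidAlgebra.single (s g) m) := by
    intro a g m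
    have hex : ∃ a', ν a' = ν a := ⟨a, rfl⟩
    have hch : hex.choose = a := hν hex.choose_spec
    simp only [σ, freeBasisLift_single_single, dif_pos hex, hch]
    exact zsmul_single_single a (s g) m
  -- the differences `g' e_a - s(π g') e_a` lift to `M`
  have hlift : ∀ (a : α) (g' : G'), ∃ u : M,
      ι u = Finsupp.single a (MonoidAlgebra.single g' 1) -
        Finsupp.single a (MonoidAlgebra.single (s (π g')) 1) := by
    intro a g'
    apply hker
    rw [map_sub, hρ, hρ, hs, sub_self]
  choose v hv using hlift
  let Λ : (α →₀ MonoidAlgebra ℤ G') →+ M := freeBasisLift v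
  have hΛ : ∀ x, ι (Λ x) = x - σ (ρ x) := by
    intro x
    have := free_addHom_ext (f := ι.comp Λ)
      (f' := AddMonoidHom.id _ - σ.comp ρ) (fun a g' m => by
        simp only [AddMonoidHom.comp_apply, AddMonoidHom.sub_apply, AddMonoidHom.id_apply, Λ,
          freeBasisLift_single_single, map_zsmul, hv, hρ, hσ]
        rw [smul_sub, zsmul_single_single, zsmul_single_single]) x
    exact this
  have hθΛ : ∀ x, θ (Λ x) = 0 := by
    intro x
    have := free_addHom_ext (f := θ.comp Λ) (f' := 0) (fun a g' m => by
        simp only [AddMonoidHom.comp_apply, AddMonoidHom.zero_apply, Λ,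
          freeBasisLift_single_single, map_zsmul, hθ a g' (v a g') (hv a g'), smul_zero]) x
    exact this
  have h1 : Λ (ι r) = r := by
    apply hι
    rw [hΛ, hr, map_zero, sub_zero]
  rw [← h1]
  exact hθΛ _

end Ker

end Fermat.Agent.S55.E1.H295
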