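/-
S55 engine E1, leaf ALG11 (local injectivity): `theorem alg11 : ALG11Spec`.  helper295.
Blueprint: coord/S55-E1.md §3 (ALG11).  Complete proof.

Proof (elementwise, on `1`-cocycles).  Let `c : G → Hom_ℤ(R, X)` be a cocycle with
`tr c = dψ`, `ψ ∈ Hom_ℤ(R', X')`, i.e. `g'ψ(g'⁻¹ r') - ψ(r') = ι(c(π g')(ρ r'))`.
* `ψ` is `H`-equivariant (`H = ker π`), so `h ↦ ψ((h - 1) e_n)` is a `1`-cocycle of `H` in `X'`;
  as `H¹(H, X') = 0` there are `x_n ∈ X'` with `ψ((h - 1) e_n) = (h - 1) x_n`.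
* `k := freeLift x : P' → X'` is `G'`-equivariant, `ψ' := ψ - k|_{R'}` has the same coboundary,
  is `G'`-equivariant on `ker ρ` and kills the `(h - 1) e_n`, hence kills `ker ρ` (`ker_vanish`).
* so `ψ' = φ' ∘ ρ`, and `φ'` takes values in `X'^H = ι(X)`: `φ' = ι ∘ φ`, and `c = dφ`.
-/
import Fermat.Agent.S55.E1.SpecAlg3
import Fermat.Agent.S55.E1.H423.Alg4Spec
import Fermat.Agent.S55.E1.H295.Alg11Ker

set_option autoImplicit false

open CategoryTheory CategoryTheory.Limits groupCohomology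

namespace Fermat.Agent.S55.E1.H295

noncomputable section

variable {G G' : Type} [Group G] [Group G'] (π : G' →* G)
variable {N : Rep.{0} ℤ G} {N' : Rep.{0} ℤ G'}

/-! ## Formulas on the basis -/

lemma trP_single_single (ν : N' ⟶ Rep.res π N) (n' : N'.V) (g' : G') (m : ℤ) :
    (trP π ν).hom (Finsupp.single n' (MonoidAlgebra.single g' m)) =
      (Finsupp.single (ν.hom n') (MonoidAlgebra.single (π g') m) : (stdP N).V) := by
  simp [trP, stdE]

lemma stdP_ρ_single_single (g h : G) (n : N.V) (m : ℤ) :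
    (stdP N).ρ g (Finsupp.single n (MonoidAlgebra.single h m)) =
      (Finsupp.single n (MonoidAlgebra.single (g * h) m) : (stdP N).V) := by
  simp

/-! ## The isomorphism `ν` on elements -/

lemma iso_inv_hom_apply (ν : N' ≅ Rep.res π N) (n' : N'.V) :
    ν.inv.hom (ν.hom.hom n') = n' := by
  have h := congrArg (fun f => f.hom n') ν.hom_inv_id
  exact h

lemma iso_hom_inv_apply (ν : N' ≅ Rep.res π N) (n : N.V) :
    ν.hom.hom (ν.inv.hom n) = n := by
  have h := congrArg (fun f => f.hom n) ν.inv_hom_id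
  exact h

lemma iso_hom_injective (ν : N' ≅ Rep.res π N) : Function.Injective ν.hom.hom := by
  intro a b hab
  rw [← iso_inv_hom_apply π ν a, ← iso_inv_hom_apply π ν b, hab]

/-! ## `ρ : P' → P` and `ρ : R' → R` -/

/-- Elements of `ker ρ ⊆ P'` come from `R'`. -/
lemma exists_stdι_of_trP_eq_zero (ν : N' ≅ Rep.res π N) (x : (stdP N').V)
    (hx : (trP π ν.hom).hom x = 0) : ∃ r : (stdR N').V, (stdι N').hom r = x := by
  apply H423.exists_stdι_eq
  apply iso_hom_injective π ν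
  rw [← trP_stdε_apply, hx, map_zero, map_zero]

lemma trR_eq_zero_iff (ν : N' ⟶ Rep.res π N) (r : (stdR N').V) :
    (trR π ν).hom r = 0 ↔ (trP π ν).hom ((stdι N').hom r) = 0 := by
  rw [← trR_stdι_apply]
  constructor
  · intro h
    rw [h, map_zero]
  · intro h
    apply H423.stdι_injective N
    rw [h, map_zero]

lemma trP_surjective (hπ : Function.Surjective π) (ν : N' ≅ Rep.res π N) :
    Function.Surjective (trP π ν.hom).hom := by
  intro x
  induction x using free_induction with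
  | zero => exact ⟨0, map_zero _⟩
  | add x y hx hy =>
    obtain ⟨a, rfl⟩ := hx
    obtain ⟨b, rfl⟩ := hy
    exact ⟨a + b, map_add _ _ _⟩
  | single n g m =>
    obtain ⟨g', rfl⟩ := hπ g
    refine ⟨Finsupp.single (ν.inv.hom n) (MonoidAlgebra.single g' m), ?_⟩
    rw [trP_single_single, iso_hom_inv_apply]

lemma trR_surjective (hπ : Function.Surjective π) (ν : N' ≅ Rep.res π N) :
    Function.Surjective (trR π ν.hom).hom := by
  intro r
  obtain ⟨x, hx⟩ := trP_surjective π hπ ν ((stdι N).hom r)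
  have hεx : (stdε N').hom x = 0 := by
    apply iso_hom_injective π ν
    rw [← trP_stdε_apply, hx, map_zero]
    exact H423.stdε_stdι_apply N r
  obtain ⟨r', rfl⟩ := H423.exists_stdι_eq N' hεx
  refine ⟨r', ?_⟩
  apply H423.stdι_injective N
  rw [trR_stdι_apply, hx]

/-- `ρ : P' → P` as an additive map of `Finsupp`s. -/
def trPAdd (ν : N' ⟶ Rep.res π N) :
    (N'.V →₀ MonoidAlgebra ℤ G') →+ (N.V →₀ MonoidAlgebra ℤ G) :=
  AddMonoidHom.mk' (fun x => (trP π ν).hom x) (fun x y => map_add (trP π ν).hom x y)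

/-- `R' → P'` as an additive map into a `Finsupp`. -/
def stdιAdd (N' : Rep.{0} ℤ G') : (stdR N').V →+ (N'.V →₀ MonoidAlgebra ℤ G') :=
  AddMonoidHom.mk' (fun x => (stdι N').hom x) (fun x y => map_add (stdι N').hom x y)

/-- An additive map `θ : R' → Y` which kills the lifts of all `a e_n - b e_n`, `π a = π b`,
kills `ker (ρ : R' → R)`. -/
lemma vanish_on_ker (hπ : Function.Surjective π) (ν : N' ≅ Rep.res π N)
    {Y : Type} [AddCommGroup Y] (θ : (stdR N').V →+ Y)
    (hθ : ∀ (n' : N'.V) (a b : G') (u : (stdR N').V), π a = π b →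
      (stdι N').hom u = (Finsupp.single n' (MonoidAlgebra.single a 1) -
        Finsupp.single n' (MonoidAlgebra.single b 1) : N'.V →₀ MonoidAlgebra ℤ G') → θ u = 0)
    (r : (stdR N').V) (hr : (trR π ν.hom).hom r = 0) : θ r = 0 := by
  have hs : ∀ g, π (Function.surjInv hπ g) = g := Function.surjInv_eq hπ
  refine ker_vanish (fun g' => π g') (Function.surjInv hπ) (fun n' => ν.hom.hom n')
    (iso_hom_injective π ν) (trPAdd π ν.hom) (fun a g' m => trP_single_single π ν.hom a g' m)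
    hs (stdιAdd N') (H423.stdι_injective N')
    (fun x hx => exists_stdι_of_trP_eq_zero π ν x hx) θ
    (fun a g' u hu => hθ a g' _ u (hs _).symm hu) r ?_
  exact (trR_eq_zero_iff π ν.hom r).1 hr

/-! ## Lifts of differences of basis elements -/

lemma exists_lift_diff (ν : N' ≅ Rep.res π N) (n' : N'.V) (a b : G') (hab : π a = π b) :
    ∃ u : (stdR N').V, (stdι N').hom u = (Finsupp.single n' (MonoidAlgebra.single a 1) -
      Finsupp.single n' (MonoidAlgebra.single b 1) : N'.V →₀ MonoidAlgebra ℤ G') := by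
  apply exists_stdι_of_trP_eq_zero π ν
  have h : (trPAdd π ν.hom) (Finsupp.single n' (MonoidAlgebra.single a 1) -
      Finsupp.single n' (MonoidAlgebra.single b 1)) = 0 := by
    rw [map_sub]
    change (trP π ν.hom).hom _ - (trP π ν.hom).hom _ = 0
    rw [trP_single_single, trP_single_single, hab, sub_self]
  exact h

/-- `ρ_R` kills the lifts of differences. -/
lemma trR_lift_diff (ν : N' ≅ Rep.res π N) (n' : N'.V) (a b : G') (hab : π a = π b)
    (u : (stdR N').V)
    (hu : (stdι N').hom u = (Finsupp.single n' (MonoidAlgebra.single a 1) -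
      Finsupp.single n' (MonoidAlgebra.single b 1) : N'.V →₀ MonoidAlgebra ℤ G')) :
    (trR π ν.hom).hom u = 0 := by
  rw [trR_eq_zero_iff, hu]
  have h : (trPAdd π ν.hom) (Finsupp.single n' (MonoidAlgebra.single a 1) -
      Finsupp.single n' (MonoidAlgebra.single b 1)) = 0 := by
    rw [map_sub]
    change (trP π ν.hom).hom _ - (trP π ν.hom).hom _ = 0
    rw [trP_single_single, trP_single_single, hab, sub_self]
  exact h

/-- Translating a lift of `a e_n - b e_n` by `g` gives a lift of `ga e_n - gb e_n`. -/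
lemma stdι_ρ_lift_diff (n' : N'.V) (g a b : G') (u : (stdR N').V)
    (hu : (stdι N').hom u = (Finsupp.single n' (MonoidAlgebra.single a 1) -
      Finsupp.single n' (MonoidAlgebra.single b 1) : N'.V →₀ MonoidAlgebra ℤ G')) :
    (stdι N').hom ((stdR N').ρ g u) = (Finsupp.single n' (MonoidAlgebra.single (g * a) 1) -
      Finsupp.single n' (MonoidAlgebra.single (g * b) 1) : N'.V →₀ MonoidAlgebra ℤ G') := by
  rw [Rep.hom_comm_apply, hu]
  have h : (stdP N').ρ g (Finsupp.single n' (MonoidAlgebra.single a 1) -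
      Finsupp.single n' (MonoidAlgebra.single b 1) : N'.V →₀ MonoidAlgebra ℤ G') =
      (stdP N').ρ g (Finsupp.single n' (MonoidAlgebra.single a 1)) -
      (stdP N').ρ g (Finsupp.single n' (MonoidAlgebra.single b 1)) := map_sub _ _ _
  rw [h, stdP_ρ_single_single, stdP_ρ_single_single]

/-! ## The core argument, in terms of additive maps -/

section Core

lemma rep_ρ_inv_ρ {k Γ : Type} [CommRing k] [Group Γ] (A : Rep.{0} k Γ) (g : Γ) (x : A.V) :
    A.ρ g⁻¹ (A.ρ g x) = x :=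
  A.ρ.inv_self_apply g x

lemma rep_ρ_ρ_inv {k Γ : Type} [CommRing k] [Group Γ] (A : Rep.{0} k Γ) (g : Γ) (x : A.V) :
    A.ρ g (A.ρ g⁻¹ x) = x :=
  A.ρ.self_inv_apply g x

lemma rep_ρ_one {k Γ : Type} [CommRing k] [Group Γ] (A : Rep.{0} k Γ) (x : A.V) :
    A.ρ 1 x = x := by
  rw [map_one, Module.End.one_apply]

lemma freeLift_single_one {k Γ α : Type} [CommRing k] [Group Γ] (A : Rep.{0} k Γ)
    (x : α → A.V) (a : α) (g : Γ) :
    (Rep.freeLift k Γ A x).hom (Finsupp.single a (MonoidAlgebra.single g 1)) = A.ρ g (x a) := by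
  simp

variable {X : Rep.{0} ℤ G} {X' : Rep.{0} ℤ G'}

theorem alg11_core (hπ : Function.Surjective π) (ν : N' ≅ Rep.res π N)
    (ι : Rep.res π X ⟶ X') (hι : Function.Injective ι.hom)
    (hinv : ∀ x' : X'.V, (∀ h ∈ π.ker, X'.ρ h x' = x') → ∃ x : X.V, ι.hom x = x')
    (hH1 : ∀ z : π.ker → X'.V,
      (∀ h₁ h₂ : π.ker, z (h₁ * h₂) = X'.ρ (h₁ : G') (z h₂) + z h₁) →
      ∃ x : X'.V, ∀ h : π.ker, z h = X'.ρ (h : G') x - x)
    (c : G → ((stdR N).V →+ X.V)) (hc1 : c 1 = 0)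
    (ψ : (stdR N').V →+ X'.V)
    (hψ : ∀ (g' : G') (r' : (stdR N').V),
      X'.ρ g' (ψ ((stdR N').ρ g'⁻¹ r')) - ψ r' =
        ι.hom (c (π g') ((trR π ν.hom).hom r'))) :
    ∃ φ : (stdR N).V →+ X.V, ∀ (g : G) (r : (stdR N).V),
      X.ρ g (φ ((stdR N).ρ g⁻¹ r)) - φ r = c g r := by
  classical
  -- (1) `ψ` is `H`-equivariant
  have hψH : ∀ (h : G') (_ : π h = 1) (r' : (stdR N').V),
      ψ ((stdR N').ρ h r') = X'.ρ h (ψ r') := by
    intro h hh r'
    have h1 := hψ h ((stdR N').ρ h r')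
    rw [hh, hc1, AddMonoidHom.zero_apply, map_zero, rep_ρ_inv_ρ, sub_eq_zero] at h1
    exact h1.symm
  -- (2) lifts `w n h` of `(h - 1) e_n`
  have hw : ∀ (n' : N'.V) (h : π.ker), ∃ u : (stdR N').V,
      (stdι N').hom u = (Finsupp.single n' (MonoidAlgebra.single (h : G') 1) -
        Finsupp.single n' (MonoidAlgebra.single 1 1) : N'.V →₀ MonoidAlgebra ℤ G') :=
    fun n' h => exists_lift_diff π ν n' h 1 (by rw [MonoidHom.mem_ker.1 h.2, map_one])
  choose w hw using hw
  -- (3) the cocycle `h ↦ ψ (w n h)`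
  have hz : ∀ (n' : N'.V) (h₁ h₂ : π.ker),
      ψ (w n' (h₁ * h₂)) = X'.ρ (h₁ : G') (ψ (w n' h₂)) + ψ (w n' h₁) := by
    intro n' h₁ h₂
    have h1 : w n' (h₁ * h₂) = (stdR N').ρ (h₁ : G') (w n' h₂) + w n' h₁ := by
      apply H423.stdι_injective N'
      rw [map_add, stdι_ρ_lift_diff n' h₁ h₂ 1 _ (hw n' h₂), hw, hw, mul_one,
        Subgroup.coe_mul]
      abel
    rw [h1, map_add, hψH _ (MonoidHom.mem_ker.1 h₁.2)]
  -- (4) it is a coboundary
  have hx : ∀ n' : N'.V, ∃ x : X'.V, ∀ h : π.ker, ψ (w n' h) = X'.ρ (h : G') x - x :=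
    fun n' => hH1 _ (hz n')
  choose x hx using hx
  -- (5) correct `ψ` by the `G'`-map `k`
  let k : stdP N' ⟶ X' := Rep.freeLift ℤ G' X' x
  let kAdd : (stdR N').V →+ X'.V :=
    AddMonoidHom.mk' (fun r => k.hom ((stdι N').hom r))
      (fun a b => by rw [map_add, map_add])
  let ψ' : (stdR N').V →+ X'.V := ψ - kAdd
  have hψ'apply : ∀ r' : (stdR N').V, ψ' r' = ψ r' - k.hom ((stdι N').hom r') :=
    fun r' => rfl
  have hA : ∀ (g' : G') (r' : (stdR N').V),
      X'.ρ g' (ψ' ((stdR N').ρ g'⁻¹ r')) - ψ' r' =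
        ι.hom (c (π g') ((trR π ν.hom).hom r')) := by
    intro g' r'
    rw [← hψ g' r', hψ'apply, hψ'apply, map_sub]
    have h1 : X'.ρ g' (k.hom ((stdι N').hom ((stdR N').ρ g'⁻¹ r'))) =
        k.hom ((stdι N').hom r') := by
      rw [Rep.hom_comm_apply, Rep.hom_comm_apply, rep_ρ_ρ_inv]
    rw [h1]
    abel
  -- `ρ_R` is equivariant
  have hρR : ∀ (g' : G') (r' : (stdR N').V),
      (trR π ν.hom).hom ((stdR N').ρ g' r') = (stdR N).ρ (π g') ((trR π ν.hom).hom r') :=
    fun g' r' => Rep.hom_comm_apply (trR π ν.hom) g' r'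
  -- (6) `ψ'` kills the lifts of differences
  have hkw : ∀ (n' : N'.V) (h : π.ker), ψ' (w n' h) = 0 := by
    intro n' h
    rw [hψ'apply, hw, hx]
    have h1 : k.hom (Finsupp.single n' (MonoidAlgebra.single (h : G') 1) -
        Finsupp.single n' (MonoidAlgebra.single 1 1) : N'.V →₀ MonoidAlgebra ℤ G') =
        X'.ρ (h : G') (x n') - x n' := by
      have h2 : k.hom (Finsupp.single n' (MonoidAlgebra.single (h : G') 1) -
          Finsupp.single n' (MonoidAlgebra.single 1 1) : N'.V →₀ MonoidAlgebra ℤ G') =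
          k.hom (Finsupp.single n' (MonoidAlgebra.single (h : G') 1)) -
          k.hom (Finsupp.single n' (MonoidAlgebra.single 1 1)) := map_sub _ _ _
      rw [h2, freeLift_single_one, freeLift_single_one, rep_ρ_one]
    rw [h1, sub_self]
  have hθ : ∀ (n' : N'.V) (a b : G') (u : (stdR N').V), π a = π b →
      (stdι N').hom u = (Finsupp.single n' (MonoidAlgebra.single a 1) -
        Finsupp.single n' (MonoidAlgebra.single b 1) : N'.V →₀ MonoidAlgebra ℤ G') →
      ψ' u = 0 := by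
    intro n' a b u hab hu
    have hmem : b⁻¹ * a ∈ π.ker := by
      rw [MonoidHom.mem_ker, map_mul, map_inv, hab, inv_mul_cancel]
    have h1 : u = (stdR N').ρ b (w n' ⟨b⁻¹ * a, hmem⟩) := by
      apply H423.stdι_injective N'
      rw [hu, stdι_ρ_lift_diff n' b (b⁻¹ * a) 1 _ (hw n' ⟨b⁻¹ * a, hmem⟩), mul_one,
        mul_inv_cancel_left]
    have h2 := hA b u
    have h3 : (trR π ν.hom).hom u = 0 := trR_lift_diff π ν n' a b hab u hu
    rw [h3, map_zero, map_zero, sub_eq_zero] at h2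
    rw [← h2, h1, rep_ρ_inv_ρ, hkw, map_zero]
  -- (7) `ψ'` kills `ker ρ_R`
  have hker : ∀ r' : (stdR N').V, (trR π ν.hom).hom r' = 0 → ψ' r' = 0 :=
    fun r' hr' => vanish_on_ker π hπ ν ψ' hθ r' hr'
  have hker' : ∀ a b : (stdR N').V, (trR π ν.hom).hom a = (trR π ν.hom).hom b →
      ψ' a = ψ' b := by
    intro a b hab
    have h1 : ψ' (a - b) = 0 := hker _ (by rw [map_sub, hab, sub_self])
    rw [map_sub, sub_eq_zero] at h1
    exact h1
  have hρRsurj : Function.Surjective (trR π ν.hom).hom := trR_surjective π hπ ν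
  -- (9) values in `X'^H = ι(X)`
  have hfix : ∀ (r' : (stdR N').V) (h : G'), h ∈ π.ker → X'.ρ h (ψ' r') = ψ' r' := by
    intro r' h hh
    have hh1 : π h = 1 := MonoidHom.mem_ker.1 hh
    have h1 := hA h r'
    rw [hh1, hc1, AddMonoidHom.zero_apply, map_zero, sub_eq_zero] at h1
    have h2 : ψ' ((stdR N').ρ h⁻¹ r') = ψ' r' := by
      apply hker'
      rw [hρR, map_inv π h, hh1, inv_one, rep_ρ_one]
    rw [h2] at h1
    exact h1
  -- (8), (10) descend to `φ : R → X`
  have hex : ∀ r : (stdR N).V, ∃ y : X.V, ∃ r' : (stdR N').V,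
      (trR π ν.hom).hom r' = r ∧ ι.hom y = ψ' r' := by
    intro r
    obtain ⟨r', rfl⟩ := hρRsurj r
    obtain ⟨y, hy⟩ := hinv (ψ' r') (hfix r')
    exact ⟨y, r', rfl, hy⟩
  choose φ₀ rr hrr hφ₀ using hex
  have hφ : ∀ r' : (stdR N').V, ι.hom (φ₀ ((trR π ν.hom).hom r')) = ψ' r' := by
    intro r'
    rw [hφ₀]
    exact hker' _ _ (hrr _)
  have hadd : ∀ a b : (stdR N).V, φ₀ (a + b) = φ₀ a + φ₀ b := by
    intro a b
    obtain ⟨a', rfl⟩ := hρRsurj a
    obtain ⟨b', rfl⟩ := hρRsurj b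
    apply hι
    rw [map_add, ← map_add, hφ, hφ, hφ, map_add]
  -- (11) `c = dφ`
  refine ⟨AddMonoidHom.mk' φ₀ hadd, fun g r => ?_⟩
  obtain ⟨g', rfl⟩ := hπ g
  obtain ⟨r', rfl⟩ := hρRsurj r
  apply hι
  have hιeq : ∀ y : X.V, ι.hom (X.ρ (π g') y) = X'.ρ g' (ι.hom y) :=
    fun y => Rep.hom_comm_apply ι g' y
  change ι.hom (X.ρ (π g') (φ₀ ((stdR N).ρ (π g')⁻¹ ((trR π ν.hom).hom r'))) -
    φ₀ ((trR π ν.hom).hom r')) = _
  have h1 : (stdR N).ρ (π g')⁻¹ ((trR π ν.hom).hom r') =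
      (trR π ν.hom).hom ((stdR N').ρ g'⁻¹ r') := by
    rw [hρR, map_inv π g']
  rw [map_sub, hιeq, h1, hφ, hφ, hA]

end Core

/-! ## ALG11 -/

open Fermat.Agent.S55.T.H719 (ihomLin ihomMk)

/-- `H¹(H, X') = 0` in terms of cocycles. -/
lemma exists_coboundary_of_isZero {Γ : Type} [Group Γ] (H : Subgroup Γ) (A : Rep.{0} ℤ Γ)
    (h0 : IsZero (groupCohomology (T.resSub A H) 1)) (z : H → A.V)
    (hz : ∀ h₁ h₂ : H, z (h₁ * h₂) = A.ρ (h₁ : Γ) (z h₂) + z h₁) :
    ∃ x : A.V, ∀ h : H, z h = A.ρ (h : Γ) x - x := by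
  have hcoc : z ∈ cocycles₁ (T.resSub A H) := by
    rw [mem_cocycles₁_iff]
    intro s t
    exact hz s t
  have hzero : H1π (T.resSub A H) ⟨z, hcoc⟩ = 0 :=
    (ModuleCat.subsingleton_of_isZero h0).elim _ _
  rw [H1π_eq_zero_iff] at hzero
  obtain ⟨a, ha⟩ := hzero
  exact ⟨a, fun h => (congrFun ha h).symm⟩

/-- **ALG11 (local injectivity).** -/
theorem alg11 : ALG11Spec := by
  intro G G' _ _ _ π hπ N N' ν X X' ι hι hinv hH1
  rw [injective_iff_map_eq_zero]
  intro y hy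
  induction y using H1_induction_on with
  | h c =>
    have hy' : H1π _ (mapCocycles₁ π (trIhom π (trR π ν.hom) ι) c) = 0 := by
      rw [← hy]
      exact (H1π_comp_map_apply π (trIhom π (trR π ν.hom) ι) c).symm
    obtain ⟨ψ, hψ⟩ := (H1π_eq_zero_iff _).1 hy'
    have hψ' : ∀ (g' : G') (r' : (stdR N').V),
        X'.ρ g' ((ihomLin ψ).toAddMonoidHom ((stdR N').ρ g'⁻¹ r')) -
          (ihomLin ψ).toAddMonoidHom r' =
        ι.hom ((ihomLin (c (π g'))).toAddMonoidHom ((trR π ν.hom).hom r')) := by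
      intro g' r'
      have h1 := congrFun hψ g'
      exact congrArg (fun t : ((Rep.ihom (stdR N')).obj X').V => ihomLin t r') h1
    have hc1 : (fun g => (ihomLin (c g)).toAddMonoidHom) 1 = 0 := by
      change (ihomLin (c 1)).toAddMonoidHom = 0
      rw [cocycles₁_map_one]
      rfl
    obtain ⟨φ, hφ⟩ := alg11_core π hπ ν ι hι hinv
      (fun z hz => exists_coboundary_of_isZero π.ker X' hH1 z hz)
      (fun g => (ihomLin (c g)).toAddMonoidHom) hc1 (ihomLin ψ).toAddMonoidHom hψ'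
    letI : Module ℤ (stdR N).V := (stdR N).hV2
    letI : Module ℤ X.V := X.hV2
    let φl : (stdR N).V →ₗ[ℤ] X.V :=
      { toFun := φ
        map_add' := φ.map_add
        map_smul' := fun n x => by simpa using map_intCast_smul φ ℤ ℤ n x }
    refine (H1π_eq_zero_iff c).2 ⟨ihomMk φl, ?_⟩
    funext g
    apply LinearMap.ext
    intro r
    exact hφ g r

end

end Fermat.Agent.S55.E1.H295
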